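import Mathlib
import Fermat.Prelude.Def_FLTPrelim_FreyPackage
import Fermat.Prelude.Def_FLTPrelim_GaloisRep
import Fermat.Prelude.Def_FLTPrelim_Modularity
import Fermat.Prelude.Def_FLTPrelim_ModularRep
import Fermat.Prelude.Def_FLTPrelim_Ramification
import Fermat.Prelude.Def_FreyPackage_IsConductorLevel

/-!
# S45 glue: level lowering to level 2, conditional on S05 / S06 / S43 / S44 / S08

Everything here is elementary bookkeeping: given the Frey forms of level lowering as hypotheses,
descend from a conductor level to a divisor of `2`.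
-/

set_option autoImplicit false
open WeierstrassCurve WeierstrassCurve.Affine WeierstrassCurve.Affine.Point
open CuspForm ModularFormClass UpperHalfPlane

namespace Fermat.Agent.S45

/-- The shape of S43 (Frey form of Ribet's level lowering at an odd prime `q ≠ p`). -/
def LowerOddHyp (P : FreyPackage) : Prop :=
  ∀ {N q : ℕ}, P.IsConductorLevel N → q.Prime → q ≠ 2 → q ≠ P.p → q ∣ N →
    GaloisRepIsIrreducible (K := AlgebraicClosure ℚ) ℚ P.freyCurve P.p →
    P.ModularRepOfLevel N → P.GaloisRepUnramifiedAt q →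
    ∃ M : ℕ, M ∣ N ∧ ¬ q ∣ M ∧ P.ModularRepOfLevel M

/-- The shape of S44 (Frey form of Mazur–Ribet: remove `p` from the level). -/
def LowerPHyp (P : FreyPackage) : Prop :=
  ∀ {N : ℕ}, P.IsConductorLevel N → P.p ∣ N →
    GaloisRepIsIrreducible (K := AlgebraicClosure ℚ) ℚ P.freyCurve P.p →
    P.ModularRepOfLevel N →
    ∃ M : ℕ, M ∣ N ∧ ¬ P.p ∣ M ∧ P.ModularRepOfLevel M

/-- The shape of S05 (unramified away from `2` and `p`). -/
def UnramHyp (P : FreyPackage) : Prop :=
  ∀ {q : ℕ}, q.Prime → q ≠ 2 → q ≠ P.p → P.GaloisRepUnramifiedAt q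

/-- A level at which the Frey representation is modular is positive. -/
theorem modularRepOfLevel_pos_of_dvd {P : FreyPackage} {N M : ℕ}
    (hcond : P.IsConductorLevel N) (hMN : M ∣ N) : 0 < M :=
  Nat.pos_of_dvd_of_pos hMN hcond.pos

/-- Descent: from a conductor level at which the Frey representation is modular, reach a level
dividing `2`. -/
theorem exists_level_dvd_two (P : FreyPackage)
    (hirr : GaloisRepIsIrreducible (K := AlgebraicClosure ℚ) ℚ P.freyCurve P.p)
    (h05 : UnramHyp P) (h43 : LowerOddHyp P) (h44 : LowerPHyp P) :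
    ∀ N : ℕ, P.IsConductorLevel N → P.ModularRepOfLevel N →
      ∃ M : ℕ, M ∣ 2 ∧ P.IsConductorLevel M ∧ P.ModularRepOfLevel M := by
  intro N
  induction N using Nat.strong_induction_on with
  | _ N ih =>
    intro hcond hmod
    by_cases hN : ∀ q : ℕ, q.Prime → q ∣ N → q = 2
    · -- `N` is squarefree with only the prime `2`: `N ∣ 2`.
      refine ⟨N, ?_, hcond, hmod⟩
      have hsq := hcond.squarefree
      have hNpos := hcond.pos
      -- N = ∏ of its prime factors, all equal to 2, squarefree ⇒ N ∣ 2
      rcases Nat.eq_or_lt_of_le (Nat.one_le_iff_ne_zero.mpr hNpos.ne') with h1 | h1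
      · rw [← h1]; exact one_dvd _
      · obtain ⟨q, hq, hqN⟩ := Nat.exists_prime_and_dvd (n := N) (by omega)
        have hq2 : q = 2 := hN q hq hqN
        subst hq2
        obtain ⟨k, hk⟩ := hqN
        -- k must be 1
        have hk1 : k = 1 := by
          by_contra hk1
          have hkpos : 0 < k := by
            rcases Nat.eq_zero_or_pos k with h0 | h0
            · subst h0; simp at hk; omega
            · exact h0
          obtain ⟨r, hr, hrk⟩ := Nat.exists_prime_and_dvd (n := k) hk1
          have hr2 : r = 2 := hN r hr (hrk.trans ⟨2, by rw [hk]; ring⟩)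
          subst hr2
          obtain ⟨j, hj⟩ := hrk
          have : 2 * 2 ∣ N := ⟨j, by rw [hk, hj]; ring⟩
          exact hcond.not_four_dvd (by simpa using this)
        subst hk1
        rw [hk]
    · push_neg at hN
      obtain ⟨q, hq, hqN, hq2⟩ := hN
      by_cases hqp : q = P.p
      · subst hqp
        obtain ⟨M, hMN, hpM, hM⟩ := h44 hcond hqN hirr hmod
        have hMpos : 0 < M := modularRepOfLevel_pos_of_dvd hcond hMN
        have hMlt : M < N := by
          refine lt_of_le_of_ne (Nat.le_of_dvd hcond.pos hMN) ?_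
          rintro rfl
          exact hpM hqN
        exact ih M hMlt (hcond.of_dvd hMN hMpos) hM
      · obtain ⟨M, hMN, hqM, hM⟩ := h43 hcond hq hq2 hqp hqN hirr hmod (h05 hq hq2 hqp)
        have hMpos : 0 < M := modularRepOfLevel_pos_of_dvd hcond hMN
        have hMlt : M < N := by
          refine lt_of_le_of_ne (Nat.le_of_dvd hcond.pos hMN) ?_
          rintro rfl
          exact hqM hqN
        exact ih M hMlt (hcond.of_dvd hMN hMpos) hM

/-- **S45, conditional form.** Given S06 (modular of a conductor level), S05, S43, S44 for the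
package `P` and the vanishing of level-one weight-two cusp forms (S08), there is a nonzero
weight-2 cusp form on `Γ₀(2)`. -/
theorem level_two_form_of_hyps (P : FreyPackage)
    (hirr : GaloisRepIsIrreducible (K := AlgebraicClosure ℚ) ℚ P.freyCurve P.p)
    (h06 : ∃ N : ℕ, P.IsConductorLevel N ∧ P.ModularRepOfLevel N)
    (h05 : UnramHyp P) (h43 : LowerOddHyp P) (h44 : LowerPHyp P)
    (h08 : ∀ f : CuspForm (CongruenceSubgroup.Gamma0 1) 2, f = 0) :
    ∃ f : CuspForm (CongruenceSubgroup.Gamma0 2) 2, f ≠ 0 := by
  obtain ⟨N, hcond, hmod⟩ := h06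
  obtain ⟨M, hM2, hMcond, hMmod⟩ := exists_level_dvd_two P hirr h05 h43 h44 N hcond hmod
  have hM : M = 1 ∨ M = 2 := by
    have := (Nat.dvd_prime Nat.prime_two).mp hM2
    exact this
  rcases hM with rfl | rfl
  · obtain ⟨f, -, -, hf, -⟩ := hMmod
    exact absurd (h08 f) hf.ne_zero
  · obtain ⟨f, -, -, hf, -⟩ := hMmod
    exact ⟨f, hf.ne_zero⟩

end Fermat.Agent.S45
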